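import Fermat.Agent.S36.Core.Main

/-!
# W36: the geometric input (CORE) in the form consumed by the wiring

`exists_coreV`: for every level `P * q` with `q ∥ P` there is `c > 0` with `AuxL.CoreV P q c`.
(Deduced from the core theorem at the auxiliary levels and `AuxL.coreV_of_dvd`: `Core.core_exists`.)
-/

set_option autoImplicit false

namespace Fermat.Agent.S36.W

/-- (CORE) at all levels `P * q`, `q ∥ P`. -/
theorem exists_coreV (P q : ℕ) [NeZero P] [NeZero q] (hq : q.Prime) (h1 : q ∣ P)
    (h2 : ¬ q ^ 2 ∣ P) : ∃ c : ℕ, 0 < c ∧ AuxL.CoreV P q c := by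
  obtain ⟨c, hc, h⟩ := Core.core_exists P q hq h1 h2
  exact ⟨c, Nat.pos_of_ne_zero hc, h⟩

end Fermat.Agent.S36.W
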