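import Mathlib

/-!
# W36: a group of operators with `(g - 1) ^ 2 = 0` has a common fixed vector
-/

set_option autoImplicit false

namespace Fermat.Agent.S36.W

/-- anticommuting operators of square zero have a common kernel vector. -/
theorem exists_common_kernel {R V : Type*} [CommRing R] [IsDomain R] [AddCommGroup V] [Module R V]
    [IsNoetherian R V] [Module.IsTorsionFree R V] (𝒩 : Set (Module.End R V)) :
    ∀ (n : ℕ) (U : Submodule R V), Module.finrank R U = n → U ≠ ⊥ →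
      (∀ A ∈ 𝒩, ∀ u ∈ U, A u ∈ U) →
      (∀ A ∈ 𝒩, ∀ B ∈ 𝒩, ∀ u ∈ U, A (B u) + B (A u) = 0) →
      (∀ A ∈ 𝒩, ∀ u ∈ U, A (A u) = 0) →
      ∃ u ∈ U, u ≠ 0 ∧ ∀ A ∈ 𝒩, A u = 0 := by
  intro n
  induction n using Nat.strong_induction_on with
  | _ n ih =>
    intro U hn hU hstab hanti hsq
    by_cases h : ∀ A ∈ 𝒩, ∀ u ∈ U, A u = 0
    · obtain ⟨u, hu, hu0⟩ := Submodule.exists_mem_ne_zero_of_ne_bot hU
      exact ⟨u, hu, hu0, fun A hA => h A hA u hu⟩
    · push Not at h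
      obtain ⟨A₀, hA₀, u₀, hu₀, hne⟩ := h
      have hle : U.map A₀ ≤ U := by
        rintro _ ⟨u, hu, rfl⟩
        exact hstab A₀ hA₀ u hu
      have hne' : U.map A₀ ≠ ⊥ := by
        intro hb
        have : A₀ u₀ ∈ U.map A₀ := ⟨u₀, hu₀, rfl⟩
        rw [hb, Submodule.mem_bot] at this
        exact hne this
      have hlt : Module.finrank R (U.map A₀) < n := by
        by_contra hcon
        rw [not_lt, ← hn] at hcon
        have h1 := Submodule.disjoint_ker_of_finrank_le A₀ hcon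
        have h2 : A₀ u₀ ∈ U ⊓ LinearMap.ker A₀ :=
          ⟨hstab A₀ hA₀ u₀ hu₀, LinearMap.mem_ker.mpr (hsq A₀ hA₀ u₀ hu₀)⟩
        rw [disjoint_iff.mp h1, Submodule.mem_bot] at h2
        exact hne h2
      obtain ⟨u, hu, hu0, hk⟩ := ih _ hlt (U.map A₀) rfl hne'
        (by
          rintro A hA _ ⟨u, hu, rfl⟩
          refine ⟨-(A u), U.neg_mem (hstab A hA u hu), ?_⟩
          rw [map_neg, neg_eq_iff_add_eq_zero, add_comm]
          exact hanti A hA A₀ hA₀ u hu)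
        (fun A hA B hB u hu => hanti A hA B hB u (hle hu))
        (fun A hA u hu => hsq A hA u (hle hu))
      exact ⟨u, hle hu, hu0, hk⟩

/-- a group acting on `W ≠ 0` with `(g - 1) ^ 2 = 0` for all `g` has a nonzero fixed vector. -/
theorem exists_fixed_vector {R : Type*} [CommRing R] [IsDomain R] [IsNoetherianRing R]
    {G : Type*} [Group G] {r : ℕ} (ρ : G →* Matrix (Fin r) (Fin r) R) (I : Subgroup G)
    (W : Submodule R (Fin r → R)) (hW : W ≠ ⊥)
    (hstab : ∀ g ∈ I, ∀ v ∈ W, (ρ g).mulVec v ∈ W)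
    (hun : ∀ g ∈ I, ∀ v ∈ W, (ρ g).mulVec ((ρ g).mulVec v) - (2 : R) • (ρ g).mulVec v + v = 0) :
    ∃ w ∈ W, w ≠ 0 ∧ ∀ g ∈ I, (ρ g).mulVec w = w := by
  classical
  -- `g + g⁻¹ = 2` on `W`
  have hinv : ∀ g ∈ I, ∀ v ∈ W, (ρ g⁻¹).mulVec v = (2 : R) • v - (ρ g).mulVec v := by
    intro g hg v hv
    have h1 := hun g hg _ (hstab g⁻¹ (I.inv_mem hg) v hv)
    have h2 : (ρ g).mulVec ((ρ g⁻¹).mulVec v) = v := by
      rw [Matrix.mulVec_mulVec, ← map_mul, mul_inv_cancel, map_one, Matrix.one_mulVec]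
    rw [h2] at h1
    rw [eq_sub_iff_add_eq, ← sub_eq_zero, ← h1]
    abel
  have hanti : ∀ g ∈ I, ∀ h ∈ I, ∀ v ∈ W,
      (ρ g).mulVec ((ρ h).mulVec v) + (ρ h).mulVec ((ρ g).mulVec v)
        - (2 : R) • (ρ g).mulVec v - (2 : R) • (ρ h).mulVec v + (2 : R) • v = 0 := by
    intro g hg' h hh v hv
    have h1 := hinv (g * h) (I.mul_mem hg' hh) v hv
    rw [mul_inv_rev, map_mul, map_mul, ← Matrix.mulVec_mulVec, ← Matrix.mulVec_mulVec,
      hinv g hg' v hv, hinv h hh _ (W.sub_mem (W.smul_mem _ hv) (hstab g hg' v hv)),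
      Matrix.mulVec_sub, Matrix.mulVec_smul, smul_sub, smul_smul] at h1
    have h3 : ((2 : R) * 2) • v = (2 : R) • v + (2 : R) • v := by
      rw [← add_smul]; congr 1; ring
    rw [h3] at h1
    rw [← sub_eq_zero] at h1
    rw [← h1]
    abel
  let 𝒩 : Set (Module.End R (Fin r → R)) := {A | ∃ g ∈ I, A = (ρ g).mulVecLin - 1}
  obtain ⟨u, hu, hu0, hk⟩ := exists_common_kernel 𝒩 _ W rfl hW
    (by
      rintro _ ⟨g, hg, rfl⟩ u hu
      exact W.sub_mem (hstab g hg u hu) hu)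
    (by
      rintro _ ⟨g, hg, rfl⟩ _ ⟨h, hh, rfl⟩ u hu
      have := hanti g hg h hh u hu
      simp only [LinearMap.sub_apply, Matrix.mulVecLin_apply, Module.End.one_apply,
        Matrix.mulVec_sub]
      rw [← this, two_smul, two_smul, two_smul]
      abel)
    (by
      rintro _ ⟨g, hg, rfl⟩ u hu
      have := hun g hg u hu
      simp only [LinearMap.sub_apply, Matrix.mulVecLin_apply, Module.End.one_apply,
        Matrix.mulVec_sub]
      rw [← this, two_smul]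
      abel)
  refine ⟨u, hu, hu0, fun g hg => ?_⟩
  have := hk _ ⟨g, hg, rfl⟩
  simpa only [LinearMap.sub_apply, Matrix.mulVecLin_apply, Module.End.one_apply,
    sub_eq_zero] using this

end Fermat.Agent.S36.W
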