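import Fermat.Agent.S30.Rep

/-!
# W36: the limit representation is congruent to the finite levels modulo `p ^ n 𝒪`
-/

set_option autoImplicit false

open IsLocalRing

namespace Fermat.Agent.S36.W

open Fermat.Agent.S30

/-- the finite levels are compatible. -/
theorem R_cong_of_le {N p : ℕ} [NeZero N] (D : AdicESDatum N p) (σ : GQ) {n k : ℕ} (h : n ≤ k) :
    MCong (pIdeal p n) (D.R k σ) (D.R n σ) := by
  induction k, h using Nat.le_induction with
  | base => exact MCong.refl _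
  | succ j hj ih => exact ((D.R_succ j σ).mono (pIdeal_mono p hj)).trans ih

/-- in a discrete valuation ring of characteristic zero the congruences hold modulo `p ^ n`. -/
theorem rep_cong_p {N p : ℕ} [NeZero N] (hp0 : p ≠ 0) (D : AdicESDatum N p) {𝒪 : Type} [CommRing 𝒪]
    [IsDomain 𝒪] [IsDiscreteValuationRing 𝒪] [CharZero 𝒪]
    (ρ : GQ → Matrix (Fin D.r) (Fin D.r) 𝒪)
    (hρ : ∀ (σ : GQ) (n : ℕ), MCong (maximalIdeal 𝒪 ^ n) (ρ σ)
      ((D.R n σ).map (Int.castRingHom 𝒪))) (σ : GQ) (n : ℕ) :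
    MCong (Ideal.span {(p : 𝒪) ^ n}) (ρ σ) ((D.R n σ).map (Int.castRingHom 𝒪)) := by
  obtain ⟨ϖ, hϖ⟩ := IsDiscreteValuationRing.exists_irreducible 𝒪
  have hne : Ideal.span {(p : 𝒪) ^ n} ≠ ⊥ := by
    rw [Ne, Ideal.span_singleton_eq_bot]
    exact pow_ne_zero _ (Nat.cast_ne_zero.mpr hp0)
  obtain ⟨j, hj⟩ := IsDiscreteValuationRing.ideal_eq_span_pow_irreducible hne hϖ
  have hj' : Ideal.span {(p : 𝒪) ^ n} = maximalIdeal 𝒪 ^ j := by
    rw [hj, hϖ.maximalIdeal_eq, Ideal.span_singleton_pow]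
  have h1 : MCong (Ideal.span {(p : 𝒪) ^ n}) (ρ σ)
      ((D.R (max j n) σ).map (Int.castRingHom 𝒪)) := by
    rw [hj']
    exact (hρ σ (max j n)).mono (Ideal.pow_le_pow_right (le_max_left j n))
  refine h1.trans ((R_cong_of_le D σ (le_max_right j n)).map _ ?_)
  rw [pIdeal, Ideal.map_span, Set.image_singleton]
  simp

end Fermat.Agent.S36.W
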