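import Fermat.Agent.NEW.NewPart
import Fermat.Agent.NEW.Flat
import Fermat.Agent.S36.AuxL.Core
import Fermat.Agent.S36.W.Cong

/-!
# W36: (CORE) + flatness: no inertia-fixed vector is killed by `α_*` and `β_*`
-/

set_option autoImplicit false

open IsLocalRing

namespace Fermat.Agent.S36.W

open Fermat.Agent.S24 (Kb FN)
open Fermat.Agent.S30 Fermat.Agent.GES Fermat.Agent.NEW

/-- the integral form of (CORE). -/
theorem core_int {N q p : ℕ} [NeZero N] [NeZero q] [NeZero p] (hq : q.Prime) (hp : p.Prime)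
    (hqp : q ≠ p) (c : ℕ) (hcore : AuxL.CoreV N q c) (C : Coord (N * q) p) (C' : Coord N p)
    (n : ℕ) (A B : Matrix (Fin C'.r) (Fin C.r) ℤ)
    (hA : ∀ h, C'.κ n (A.mulVec h) = alphaV N q (p ^ n) (C.κ n h))
    (hB : ∀ h, C'.κ n (B.mulVec h) = betaV N q (p ^ n) (C.κ n h))
    (P : ValuationSubring Kb) (hP : P.LiesOverPrime q) (h : Fin C.r → ℤ)
    (h1 : ∀ i, (p : ℤ) ^ n ∣ (A.mulVec h) i) (h2 : ∀ i, (p : ℤ) ^ n ∣ (B.mulVec h) i)
    (h3 : ∀ τ ∈ P.inertiaSubgroupIn ℚ, ∀ i, (p : ℤ) ^ n ∣ ((C.R n τ).mulVec h) i - h i) (i : Fin C.r) :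
    (p : ℤ) ^ n ∣ (c : ℤ) * h i := by
  have hqm : ¬ q ∣ p ^ n := fun hd =>
    hqp ((Nat.prime_dvd_prime_iff_eq hq hp).mp (hq.dvd_of_dvd_pow hd))
  have e1 : alphaV N q (p ^ n) (C.κ n h) = 0 := by
    rw [← hA]
    exact kappa_eq_zero_of_dvd C' n _ h1
  have e2 : betaV N q (p ^ n) (C.κ n h) = 0 := by
    rw [← hB]
    exact kappa_eq_zero_of_dvd C' n _ h2
  have e3 : ∀ τ ∈ P.inertiaSubgroupIn ℚ, rhoV (N * q) (p ^ n) τ (C.κ n h) = C.κ n h := by
    intro τ hτ
    rw [← C.κ_R, ← sub_eq_zero, ← map_sub]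
    exact kappa_eq_zero_of_dvd C n _ (h3 τ hτ)
  have e4 := hcore P hP (p ^ n) hqm (C.κ n h) e3 e1 e2
  rw [← map_nsmul] at e4
  have e5 := C.κ_ker n _ e4 i
  simpa using e5

/-- a vector of `𝒪 ^ r` fixed by the inertia group at `q` and killed by `α_*`, `β_*` vanishes. -/
theorem no_fixed {N q p : ℕ} [NeZero N] [NeZero q] [NeZero p] (hq : q.Prime) (hp : p.Prime)
    (hqp : q ≠ p) (c : ℕ) (hc : 0 < c) (hcore : AuxL.CoreV N q c)
    (C : Coord (N * q) p) (C' : Coord N p)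
    {𝒪 : Type} [CommRing 𝒪] [IsDomain 𝒪] [IsDiscreteValuationRing 𝒪]
    [IsHausdorff (maximalIdeal 𝒪) 𝒪] [CharZero 𝒪] (hp𝒪 : (p : 𝒪) ∈ maximalIdeal 𝒪)
    (A B : ℕ → Matrix (Fin C'.r) (Fin C.r) ℤ)
    (hA : ∀ n h, C'.κ n ((A n).mulVec h) = alphaV N q (p ^ n) (C.κ n h))
    (hB : ∀ n h, C'.κ n ((B n).mulVec h) = betaV N q (p ^ n) (C.κ n h))
    (ρ : S30.GQ → Matrix (Fin C.r) (Fin C.r) 𝒪)
    (hρ : ∀ (σ : S30.GQ) (n : ℕ), MCong (maximalIdeal 𝒪 ^ n) (ρ σ)
      ((C.R n σ).map (Int.castRingHom 𝒪)))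
    (P : ValuationSubring Kb) (hP : P.LiesOverPrime q) (w : Fin C.r → 𝒪)
    (hfix : ∀ τ ∈ P.inertiaSubgroupIn ℚ, (ρ τ).mulVec w = w)
    (hAw : ∀ n i, (p : 𝒪) ^ n ∣ (((A n).map (Int.castRingHom 𝒪)).mulVec w) i)
    (hBw : ∀ n i, (p : 𝒪) ^ n ∣ (((B n).map (Int.castRingHom 𝒪)).mulVec w) i) : w = 0 := by
  classical
  have key : ∀ n k, (p : 𝒪) ^ n ∣ (c : 𝒪) * w k := by
    intro n k
    let I := {τ : S30.GQ // τ ∈ P.inertiaSubgroupIn ℚ}
    let E : Matrix ((Fin C'.r ⊕ Fin C'.r) ⊕ (I × Fin C.r)) (Fin C.r) ℤ := fun a =>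
      match a with
      | Sum.inl (Sum.inl i) => A n i
      | Sum.inl (Sum.inr i) => B n i
      | Sum.inr (τ, i) => (C.R n τ.1 - 1) i
    let X : Matrix (Fin C.r) (Fin C.r) ℤ := (c : ℤ) • 1
    have hX : ∀ (h : Fin C.r → ℤ) k, (X.mulVec h) k = (c : ℤ) * h k := by
      intro h k
      simp [X]
    have hX' : ∀ k, ((X.map (Int.castRingHom 𝒪)).mulVec w) k = (c : 𝒪) * w k := by
      intro k
      have : X.map (Int.castRingHom 𝒪) = (c : 𝒪) • (1 : Matrix (Fin C.r) (Fin C.r) 𝒪) := by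
        have h4 := map_zsmul (Int.castRingHom 𝒪).mapMatrix (c : ℤ)
          (1 : Matrix (Fin C.r) (Fin C.r) ℤ)
        rw [map_one] at h4
        have h5 : (c : ℤ) • (1 : Matrix (Fin C.r) (Fin C.r) 𝒪) = (c : 𝒪) • 1 := by
          rw [← Int.cast_smul_eq_zsmul 𝒪, Int.cast_natCast]
        exact h4.trans h5
      rw [this, Matrix.smul_mulVec, Matrix.one_mulVec, Pi.smul_apply, smul_eq_mul]
    have h1 := flat_transfer (𝒪 := 𝒪) (p ^ n) (pow_ne_zero n hp.ne_zero) E X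
      (by
        intro h hE k
        rw [hX]
        push_cast
        refine core_int hq hp hqp c hcore C C' n (A n) (B n) (hA n) (hB n) P hP h ?_ ?_ ?_ k
        · intro i
          have := hE (Sum.inl (Sum.inl i))
          push_cast at this
          exact this
        · intro i
          have := hE (Sum.inl (Sum.inr i))
          push_cast at this
          exact this
        · intro τ hτ i
          have := hE (Sum.inr (⟨τ, hτ⟩, i))
          push_cast at this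
          have e : (E.mulVec h) (Sum.inr (⟨τ, hτ⟩, i)) = ((C.R n τ - 1).mulVec h) i := rfl
          rw [e, Matrix.sub_mulVec, Matrix.one_mulVec] at this
          exact this)
      w
      (by
        intro a
        push_cast
        rcases a with (i | i) | ⟨τ, i⟩
        · exact hAw n i
        · exact hBw n i
        · have e : ((E.map (Int.castRingHom 𝒪)).mulVec w) (Sum.inr (τ, i)) =
              (((C.R n τ.1 - 1).map (Int.castRingHom 𝒪)).mulVec w) i := rfl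
          rw [e]
          have e2 : (C.R n τ.1 - 1).map (Int.castRingHom 𝒪) =
              (C.R n τ.1).map (Int.castRingHom 𝒪) - 1 := by
            have := map_sub (Int.castRingHom 𝒪).mapMatrix (C.R n τ.1) 1
            rw [map_one] at this
            exact this
          rw [e2, Matrix.sub_mulVec, Matrix.one_mulVec]
          have h3 := (rep_cong_p hp.ne_zero C.toAdicESDatum ρ hρ τ.1 n).mulVec w i
          rw [hfix τ.1 τ.2, Ideal.mem_span_singleton] at h3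
          rw [Pi.sub_apply, ← neg_sub]
          exact (dvd_neg).mpr h3)
      k
    rw [hX'] at h1
    push_cast at h1
    exact h1
  funext k
  have hc0 : (c : 𝒪) ≠ 0 := Nat.cast_ne_zero.mpr hc.ne'
  have h0 : (c : 𝒪) * w k = 0 := by
    refine eq_of_forall_sub_mem (maximalIdeal 𝒪) fun n => ?_
    rw [sub_zero]
    obtain ⟨z, hz⟩ := key n k
    rw [hz]
    exact Ideal.mul_mem_right _ _ (Ideal.pow_mem_pow hp𝒪 n)
  exact (mul_eq_zero.mp h0).resolve_left hc0

end Fermat.Agent.S36.W
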