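import Fermat.Agent.NEW.Main
import Fermat.Agent.NEW.Rep
import Fermat.Agent.S36.W.Fixed
import Fermat.Agent.S36.W.NoFixed
import Fermat.Agent.S36.W.CoreAll
import Fermat.Agent.S54.Frob
import Fermat.Prelude.Def_GaloisRep_LocalConditions

/-!
# W36: the wiring at one prime `q` with `q ^ 2 ∥ M`
-/

set_option autoImplicit false

open Polynomial IsLocalRing

namespace Fermat.Agent.S36.W

open Fermat.Agent.S24 (Kb FN)
open Fermat.Agent.S30 Fermat.Agent.GES Fermat.Agent.NEW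

theorem coeff_of_charpoly {R : Type*} [CommRing R] [Nontrivial R] (a b : R)
    (h : (X ^ 2 - C a * X + C b : R[X]) = (X - 1) ^ 2) : a = 2 ∧ b = 1 := by
  constructor
  · have := congrArg (fun f => Polynomial.coeff f 1) h
    have e : ((X - 1) ^ 2 : R[X]) = X ^ 2 - C 2 * X + C 1 := by
      simp only [map_ofNat, map_one]; ring
    rw [e] at this
    simpa [Polynomial.coeff_X, Polynomial.coeff_C, Polynomial.coeff_X_pow, Polynomial.coeff_one] using this
  · have := congrArg (fun f => Polynomial.coeff f 0) h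
    have e : ((X - 1) ^ 2 : R[X]) = X ^ 2 - C 2 * X + C 1 := by
      simp only [map_ofNat, map_one]; ring
    rw [e] at this
    simpa [Polynomial.coeff_X, Polynomial.coeff_C, Polynomial.coeff_X_pow, Polynomial.coeff_one] using this

/-- the level written `N * q`. -/
theorem wiring_aux {N q : ℕ} [NeZero N] [NeZero q]
    {g : CuspForm (CongruenceSubgroup.Gamma0 (N * q)) 2} (hg : g.IsNewform)
    (lam : ℕ) [Fact lam.Prime] [NeZero lam] (S : Finset ℕ)
    (O' : Type) [CommRing O'] [IsDomain O'] [IsDiscreteValuationRing O']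
    [IsAdicComplete (maximalIdeal O') O'] [CharZero O'] (hlamO' : (lam : O') ∈ maximalIdeal O')
    (chig : CuspForm.heckeAlgebra (N * q) 2 (↑S : Set ℕ) →+* ℂ)
    (hchig : ∀ (ℓ : ℕ) (hℓ : ℓ.Prime) (hℓM : ¬ ℓ ∣ N * q) (hℓS : ℓ ∉ (↑S : Set ℕ)),
      chig (CuspForm.heckeAlgebra.T hℓ hℓM hℓS) = ModularFormClass.qCoeff g ℓ)
    (iota : chig.range →+* O')
    (hlamS : lam ∈ S) (hMS : ∀ q' : ℕ, q'.Prime → q' ∣ N * q → q' ∈ S)
    (Co : Coord (N * q) lam) (ρ : S30.GQ →* Matrix (Fin Co.r) (Fin Co.r) O')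
    (hρR : ∀ σ n, MCong (maximalIdeal O' ^ n) (ρ σ) ((Co.R n σ).map (Int.castRingHom O')))
    (t : S30.GQ → O') (d : S30.GQ →* O') (ρ₂ : GaloisRepAdic O')
    (hrel : ∀ g', ∀ v ∈ eigenModule (N * q) S (Co.TO O') (eigSys (iota.comp chig.rangeRestrict)),
      (ρ g').mulVec ((ρ g').mulVec v) - t g' • (ρ g').mulVec v + d g' • v = 0)
    (hchar : ∀ g', LinearMap.charpoly (ρ₂.ρ g') = X ^ 2 - C (t g') * X + C (d g'))
    (v₀ : Fin Co.r → O')
    (hv₀ : v₀ ∈ eigenModule (N * q) S (Co.TO O') (eigSys (iota.comp chig.rangeRestrict)))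
    (hv₀ne : v₀ ≠ 0)
    (hstab : ∀ g', ∀ v ∈ eigenModule (N * q) S (Co.TO O') (eigSys (iota.comp chig.rangeRestrict)),
      (ρ g').mulVec v ∈ eigenModule (N * q) S (Co.TO O') (eigSys (iota.comp chig.rangeRestrict)))
    (hq : q.Prime) (hqlam : q ≠ lam) (h1 : q ∣ N) (h2 : ¬ q ^ 2 ∣ N)
    (hunip : ρ₂.IsUnipotentOnInertiaAt q) : False := by
  have hlam : lam.Prime := Fact.out
  obtain ⟨c, hc, hcore⟩ := exists_coreV N q hq h1 h2
  obtain ⟨C'⟩ := exists_coord N lam hlam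
  obtain ⟨A, B, hA, hB, hAB⟩ := new_part hq.one_lt hlam Co C' hg S hlamS hMS hlamO' chig hchig iota
  obtain ⟨P, hP⟩ := S54.exists_liesOverPrime hq
  set W := eigenModule (N * q) S (Co.TO O') (eigSys (iota.comp chig.rangeRestrict)) with hW
  have hWne : W ≠ ⊥ := fun h => hv₀ne ((Submodule.eq_bot_iff W).mp h v₀ hv₀)
  obtain ⟨w, hw, hw0, hfix⟩ := exists_fixed_vector ρ (P.inertiaSubgroupIn ℚ) W hWne
    (fun g' _ v hv => hstab g' v hv)
    (by
      intro τ hτ v hv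
      have e1 := hunip P hP τ hτ
      rw [hchar] at e1
      obtain ⟨ht, hd⟩ := coeff_of_charpoly _ _ e1
      have e2 := hrel τ v hv
      rw [ht, hd, one_smul] at e2
      exact e2)
  exact hw0 (no_fixed hq hlam hqlam c hc hcore Co C' hlamO' A B hA hB ρ hρR P hP w hfix
    (fun n i => (hAB w hw n i).1) (fun n i => (hAB w hw n i).2))

/-- the wiring at level `M`. -/
theorem wiring {M : ℕ} [NeZero M] {g : CuspForm (CongruenceSubgroup.Gamma0 M) 2} (hg : g.IsNewform)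
    (lam : ℕ) [Fact lam.Prime] [NeZero lam] (S : Finset ℕ)
    (O' : Type) [CommRing O'] [IsDomain O'] [IsDiscreteValuationRing O']
    [IsAdicComplete (maximalIdeal O') O'] [CharZero O'] (hlamO' : (lam : O') ∈ maximalIdeal O')
    (chig : CuspForm.heckeAlgebra M 2 (↑S : Set ℕ) →+* ℂ)
    (hchig : ∀ (ℓ : ℕ) (hℓ : ℓ.Prime) (hℓM : ¬ ℓ ∣ M) (hℓS : ℓ ∉ (↑S : Set ℕ)),
      chig (CuspForm.heckeAlgebra.T hℓ hℓM hℓS) = ModularFormClass.qCoeff g ℓ)
    (iota : chig.range →+* O')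
    (hlamS : lam ∈ S) (hMS : ∀ q' : ℕ, q'.Prime → q' ∣ M → q' ∈ S)
    (Co : Coord M lam) (ρ : S30.GQ →* Matrix (Fin Co.r) (Fin Co.r) O')
    (hρR : ∀ σ n, MCong (maximalIdeal O' ^ n) (ρ σ) ((Co.R n σ).map (Int.castRingHom O')))
    (t : S30.GQ → O') (d : S30.GQ →* O') (ρ₂ : GaloisRepAdic O')
    (hrel : ∀ g', ∀ v ∈ eigenModule M S (Co.TO O') (eigSys (iota.comp chig.rangeRestrict)),
      (ρ g').mulVec ((ρ g').mulVec v) - t g' • (ρ g').mulVec v + d g' • v = 0)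
    (hchar : ∀ g', LinearMap.charpoly (ρ₂.ρ g') = X ^ 2 - C (t g') * X + C (d g'))
    (v₀ : Fin Co.r → O')
    (hv₀ : v₀ ∈ eigenModule M S (Co.TO O') (eigSys (iota.comp chig.rangeRestrict)))
    (hv₀ne : v₀ ≠ 0)
    (hstab : ∀ g', ∀ v ∈ eigenModule M S (Co.TO O') (eigSys (iota.comp chig.rangeRestrict)),
      (ρ g').mulVec v ∈ eigenModule M S (Co.TO O') (eigSys (iota.comp chig.rangeRestrict)))
    (q : ℕ) (hq : q.Prime) (hqlam : q ≠ lam) (hfac : M.factorization q = 2)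
    (hunip : ρ₂.IsUnipotentOnInertiaAt q) : False := by
  have hM0 : M ≠ 0 := NeZero.ne M
  have hq2 : q ^ 2 ∣ M := by
    rw [← hfac]
    exact Nat.ordProj_dvd M q
  have hq3 : ¬ q ^ 3 ∣ M := by
    intro h
    have := (hq.pow_dvd_iff_le_factorization hM0).mp h
    omega
  obtain ⟨N, rfl⟩ : ∃ N, M = N * q :=
    ⟨M / q, (Nat.div_mul_cancel ((dvd_pow_self q two_ne_zero).trans hq2)).symm⟩
  have : NeZero N := ⟨fun h => hM0 (by rw [h, zero_mul])⟩
  have : NeZero q := ⟨hq.ne_zero⟩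
  have h1 : q ∣ N := by
    rw [pow_two] at hq2
    exact Nat.dvd_of_mul_dvd_mul_right hq.pos hq2
  have h2 : ¬ q ^ 2 ∣ N := by
    intro h
    apply hq3
    rw [pow_succ]
    exact Nat.mul_dvd_mul_right h q
  exact wiring_aux hg lam S O' hlamO' chig hchig iota hlamS hMS Co ρ hρR t d ρ₂ hrel hchar v₀ hv₀
    hv₀ne hstab hq hqlam h1 h2 hunip

end Fermat.Agent.S36.W
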